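/-
Programme TW (S56), sub-programme C3 (Tate's global Euler characteristic), brick C3-T6
(choice of `S0`), helper6.

For a number field `F` there is a finite set `S0` of rational primes such that for every
`S ⊇ S0` and every `n : ℕ`: an `x ∈ Fˣ` whose order at every prime of `F` away from `S` is
divisible by `n` is an `S`-unit times an `n`-th power.  (Vocabulary of `PT/GLOB/Interface23`;
the finiteness of the class group enters through `ClassKillCT15.exists_nat_divT_surjective`.)
-/
import Mathlib
import Fermat.Agent.PT.GLOB.Interface23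
import Fermat.Agent.PT.GLOB.ClassKillCT15

set_option autoImplicit false

namespace Fermat.Agent.TW.TateS06.Main

open NumberField IsDedekindDomain
open Fermat.Agent.PT.GLOB.Interface23 Fermat.Agent.PT.GLOB.ClassKillCT15

variable (F : Type*) [Field F] [NumberField F]

/-- If `divT S F` is surjective, every `x` with all orders away from `S` divisible by `n` is an
`S`-unit times an `n`-th power. -/
theorem exists_unit_mul_pow_of_surjective (S : Finset Nat.Primes)
    (hsurj : Function.Surjective (divT S F)) (n : ℕ) (x : Fˣ)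
    (hx : ∀ P : PrimeAway S F, (n : ℤ) ∣ ordAt F P.1 x) :
    ∃ e ∈ (divT S F).ker, ∃ y : Fˣ, x = e * y ^ n := by
  classical
  let f : PrimeAway S F →₀ ℤ :=
    Finsupp.mapRange (fun a : ℤ => a / (n : ℤ)) (Int.zero_ediv _) (DivT.toFinsupp S F (divT S F x))
  obtain ⟨y, hy⟩ := hsurj (DivT.ofFinsupp S F f)
  refine ⟨x / y ^ n, ?_, y, by rw [div_mul_cancel]⟩
  rw [MonoidHom.mem_ker, map_div, map_pow, hy, div_eq_one]
  show DivT.ofFinsupp S F (DivT.toFinsupp S F (divT S F x)) =
    DivT.ofFinsupp S F (n • DivT.toFinsupp S F (DivT.ofFinsupp S F f))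
  congr 1
  ext P
  rw [Finsupp.smul_apply]
  show DivT.toFinsupp S F (divT S F x) P = n • f P
  rw [Finsupp.mapRange_apply, divT_apply, nsmul_eq_mul, Int.mul_ediv_cancel' (hx P)]

/-- **C3-T6.**  There is a finite set `S0` of rational primes such that for all `S ⊇ S0` every
`x ∈ Fˣ` all of whose orders away from `S` are divisible by `n` is of the form `e * y ^ n` with
`e` an `S`-unit. -/
theorem exists_S0 :
    ∃ S0 : Finset Nat.Primes, ∀ S : Finset Nat.Primes, S0 ⊆ S → ∀ (n : ℕ) (x : Fˣ),
      (∀ P : PrimeAway S F, (n : ℤ) ∣ ordAt F P.1 x) →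
        ∃ e ∈ (divT S F).ker, ∃ y : Fˣ, x = e * y ^ n := by
  obtain ⟨N, hN, h⟩ := exists_nat_divT_surjective F
  refine ⟨Finset.subtype Nat.Prime N.primeFactors, fun S hS n x hx => ?_⟩
  refine exists_unit_mul_pow_of_surjective F S (h S fun q hq => hS ?_) n x hx
  exact (Finset.mem_subtype (p := Nat.Prime) (s := N.primeFactors) (a := q)).2
    (Nat.mem_primeFactors.2 ⟨q.2, hq, hN⟩)

/-- Variant of `exists_S0` that also lets one enlarge `S0` by a prescribed finite set. -/
theorem exists_S0_ge (S1 : Finset Nat.Primes) :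
    ∃ S0 : Finset Nat.Primes, S1 ⊆ S0 ∧ ∀ S : Finset Nat.Primes, S0 ⊆ S → ∀ (n : ℕ) (x : Fˣ),
      (∀ P : PrimeAway S F, (n : ℤ) ∣ ordAt F P.1 x) →
        ∃ e ∈ (divT S F).ker, ∃ y : Fˣ, x = e * y ^ n := by
  classical
  obtain ⟨S0, h⟩ := exists_S0 F
  exact ⟨S1 ∪ S0, Finset.subset_union_left,
    fun S hS => h S (Finset.subset_union_right.trans hS)⟩

end Fermat.Agent.TW.TateS06.Main
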